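import Fermat.Agent.KurlbergRudnick.Series
import Mathlib.LinearAlgebra.Lagrange

/-!
# Squarefree polynomials with prescribed values

The number of squarefree monic `D` of degree `d` with prescribed values on a set of points is
`q ^ d (1 - 1 / q) ∏ W + O(q ^ (d / 2))`, with `W` depending only on which values vanish.
-/

set_option autoImplicit false
set_option linter.style.openClassical false
set_option linter.style.haveILetI false
set_option linter.unusedSectionVars false

noncomputable section

open scoped Classical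

namespace FA.KurlbergRudnick

open Polynomial

variable {k : Type*} [Field k] [Fintype k]

/-- Evaluation at a finite set of points. -/
def evalOn (T : Finset k) (m : ℕ) : SquarefreeFF.Deg k m →+ (T → k) where
  toFun a x := a.1.eval x.1
  map_zero' := funext fun x => by simp
  map_add' a b := funext fun x => by simp

theorem card_filter_values_eq (T : Finset k) (v : k → k) (m : ℕ) :
    ((monicSet k m).filter fun B => ∀ x ∈ T, B.eval x = v x).card =
      Nat.card {a : SquarefreeFF.Deg k m // evalOn T m a = fun x => v x.1 - x.1 ^ m} := by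
  rw [← Nat.card_eq_finsetCard]
  refine (Nat.card_congr (Equiv.ofBijective
    (fun a => (⟨X ^ m + a.1.1, Finset.mem_filter.mpr ⟨?_, fun x hx => ?_⟩⟩ :
      ↥((monicSet k m).filter fun B => ∀ x ∈ T, B.eval x = v x))) ⟨?_, ?_⟩)).symm
  · simp [monicSet]
  · have h := congrFun a.2 ⟨x, hx⟩
    simp only [evalOn, AddMonoidHom.coe_mk, ZeroHom.coe_mk] at h
    rw [eval_add, eval_pow, eval_X, h, add_sub_cancel]
  · exact fun a b h => Subtype.ext (Subtype.ext (add_left_cancel (congrArg Subtype.val h)))
  · rintro ⟨B, hB⟩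
    obtain ⟨hB, hv⟩ := Finset.mem_filter.mp hB
    simp only [monicSet, Set.Finite.mem_toFinset, Set.mem_range] at hB
    obtain ⟨a, rfl⟩ := hB
    exact ⟨⟨a, funext fun x => eq_sub_of_add_eq' (by simpa [evalOn] using hv x.1 x.2)⟩, rfl⟩

/-- Enough room: all values are equally frequent. -/
theorem card_filter_values (T : Finset k) (v : k → k) {m : ℕ} (h : T.card ≤ m) :
    ((monicSet k m).filter fun B => ∀ x ∈ T, B.eval x = v x).card =
      Fintype.card k ^ (m - T.card) := by
  have hsurj : Function.Surjective (evalOn T m) := fun g => by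
    refine ⟨⟨Lagrange.interpolate Finset.univ (fun x : T => x.1) g, mem_degreeLT.mpr ?_⟩, ?_⟩
    · refine (Lagrange.degree_interpolate_lt g Subtype.val_injective.injOn).trans_le ?_
      rw [Finset.card_univ, Fintype.card_coe]
      exact_mod_cast h
    · exact funext fun x =>
        Lagrange.eval_interpolate_at_node g Subtype.val_injective.injOn (Finset.mem_univ x)
  have hfib : ∀ g : T → k, Nat.card {a // evalOn T m a = g} =
      Nat.card {a // evalOn T m a = 0} := fun g => by
    obtain ⟨a0, rfl⟩ := hsurj g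
    exact Nat.card_congr ((Equiv.subRight a0).subtypeEquiv fun a => by
      simp [map_sub, sub_eq_zero])
  have hsum := Nat.card_congr (Equiv.sigmaFiberEquiv (evalOn T m))
  rw [Nat.card_sigma, Finset.sum_congr rfl fun g _ => hfib g, Finset.sum_const, Finset.card_univ,
    Fintype.card_fun, Fintype.card_coe, SquarefreeFF.natCard_deg, smul_eq_mul] at hsum
  rw [card_filter_values_eq, hfib]
  refine Nat.eq_of_mul_eq_mul_left (pow_pos Fintype.card_pos T.card) (hsum.trans ?_)
  rw [← pow_add, Nat.add_sub_cancel' h]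

/-- Too little room: at most one polynomial. -/
theorem card_filter_values_le_one (T : Finset k) (v : k → k) {m : ℕ} (h : m < T.card) :
    ((monicSet k m).filter fun B => ∀ x ∈ T, B.eval x = v x).card ≤ 1 := by
  rw [card_filter_values_eq, Finite.card_le_one_iff_subsingleton]
  refine ⟨fun a b => Subtype.ext (Subtype.ext (sub_eq_zero.mp ?_))⟩
  refine eq_zero_of_degree_lt_of_eval_finset_eq_zero T ?_ fun x hx => ?_
  · exact lt_of_lt_of_le (mem_degreeLT.mp (Submodule.sub_mem _ a.1.2 b.1.2))
      (by exact_mod_cast h.le)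
  · have hab := congrFun (a.2.trans b.2.symm) ⟨x, hx⟩
    rw [eval_sub, sub_eq_zero]
    exact hab

theorem abs_card_filter_values_sub_le (T : Finset k) (v : k → k) (m : ℕ) :
    |(((monicSet k m).filter fun B => ∀ x ∈ T, B.eval x = v x).card : ℝ) -
      (Fintype.card k : ℝ) ^ m / (Fintype.card k : ℝ) ^ T.card| ≤ 1 := by
  have hq := one_lt_q (k := k)
  rcases le_or_gt T.card m with h | h
  · rw [card_filter_values T v h, Nat.cast_pow, pow_sub₀ _ (zero_lt_one.trans hq).ne' h,
      ← div_eq_mul_inv, sub_self, abs_zero]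
    exact zero_le_one
  · have h1 : (((monicSet k m).filter fun B => ∀ x ∈ T, B.eval x = v x).card : ℝ) ≤ 1 := by
      exact_mod_cast card_filter_values_le_one T v h
    have h2 : (Fintype.card k : ℝ) ^ m / (Fintype.card k : ℝ) ^ T.card ≤ 1 :=
      (div_le_one (by positivity)).mpr (pow_le_pow_right₀ hq.le h.le)
    exact abs_sub_le_of_le_of_le (Nat.cast_nonneg _) h1 (by positivity) h2 |>.trans (by norm_num)

/-- The number of squarefree monic polynomials of degree `d` with given values on `S`. -/
def sfCount (S : Finset k) (c : k → k) (d : ℕ) : ℕ :=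
  ((monicSet k d).filter fun D => Squarefree D ∧ ∀ x ∈ S, D.eval x = c x).card

/-- The weight of a root. -/
def valueWeight (S : Finset k) (c : k → k) (x : k) : ℝ :=
  if x ∈ S then (if c x = 0 then (Fintype.card k : ℝ) else 0) else 1

theorem weightBound_valueWeight_le (S : Finset k) (c : k → k) :
    weightBound (valueWeight S c) ≤ (Fintype.card k : ℝ) ^ S.card := by
  have hq := (one_lt_q (k := k)).le
  refine (Finset.prod_le_prod (fun x _ => zero_le_one.trans (le_max_left _ _))
    (g := fun x => if x ∈ S then (Fintype.card k : ℝ) else 1) fun x _ => ?_).trans (le_of_eq ?_)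
  · by_cases hx : x ∈ S
    · rw [if_pos hx, valueWeight, if_pos hx]
      split_ifs <;> simp [hq]
    · rw [if_neg hx, valueWeight, if_neg hx]
      simp
  · rw [Finset.prod_ite_mem, Finset.univ_inter, Finset.prod_const]

/-- The multiples of one square. -/
theorem abs_card_sq_dvd_sub_le (S : Finset k) (c : k → k) {d : ℕ} {A : k[X]} (hA : A.Monic)
    (hd : 2 * A.natDegree ≤ d) :
    |((((monicSet k d).filter fun D => ∀ x ∈ S, D.eval x = c x).filter (A ^ 2 ∣ ·)).card : ℝ) -
        (Fintype.card k : ℝ) ^ (d - 2 * A.natDegree) * rootWeight (valueWeight S c) A /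
          (Fintype.card k : ℝ) ^ S.card| ≤ 1 := by
  have hAd : (A ^ 2).natDegree = 2 * A.natDegree := natDegree_pow A 2
  rw [Finset.filter_comm, filter_dvd_monicSet (hA.pow 2) (hAd ▸ hd), Finset.filter_image,
    Finset.card_image_of_injective _ fun a b h => mul_left_cancel₀ (hA.pow 2).ne_zero h, hAd]
  by_cases hbad : ∃ x ∈ S, A.IsRoot x ∧ c x ≠ 0
  · obtain ⟨x, hx, hroot, hc⟩ := hbad
    rw [Finset.filter_false_of_mem fun B _ h => hc (by
      rw [← h x hx, eval_mul, eval_pow, hroot.eq_zero]; simp)]
    rw [rootWeight, Finset.prod_eq_zero (Finset.mem_univ x) (by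
      rw [if_pos hroot, valueWeight, if_pos hx, if_neg hc])]
    simp
  push Not at hbad
  set T := S.filter fun x => ¬ A.IsRoot x
  have hcongr : ((monicSet k (d - 2 * A.natDegree)).filter
      fun B => ∀ x ∈ S, (A ^ 2 * B).eval x = c x) =
      (monicSet k (d - 2 * A.natDegree)).filter
        fun B => ∀ x ∈ T, B.eval x = c x / A.eval x ^ 2 := by
    refine Finset.filter_congr fun B _ => ⟨fun h x hx => ?_, fun h x hx => ?_⟩
    · obtain ⟨hxS, hxA⟩ := Finset.mem_filter.mp hx
      rw [← h x hxS, eval_mul, eval_pow, mul_div_cancel_left₀ _ (pow_ne_zero 2 hxA)]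
    · by_cases hroot : A.IsRoot x
      · rw [eval_mul, eval_pow, hroot.eq_zero, hbad x hx hroot]
        simp
      · rw [eval_mul, eval_pow, h x (Finset.mem_filter.mpr ⟨hx, hroot⟩),
          mul_div_cancel₀ _ (pow_ne_zero 2 hroot)]
  have hw : rootWeight (valueWeight S c) A =
      (Fintype.card k : ℝ) ^ (S.filter fun x => A.IsRoot x).card := by
    rw [← Finset.prod_const, Finset.prod_filter, rootWeight]
    refine (Finset.prod_subset_one_on_sdiff (Finset.subset_univ S) (fun x hx => ?_)
      fun x hx => ?_).symm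
    · rw [valueWeight, if_neg (Finset.mem_sdiff.mp hx).2]
      exact ite_self 1
    · split_ifs with hroot
      · rw [valueWeight, if_pos hx, if_pos (hbad x hx hroot)]
      · rfl
  rw [hcongr, hw, ← Finset.card_filter_add_card_filter_not (s := S) (fun x => A.IsRoot x),
    pow_add, mul_comm ((Fintype.card k : ℝ) ^ _) ((Fintype.card k : ℝ) ^ _),
    mul_div_mul_left _ _ (pow_ne_zero _ (zero_lt_one.trans one_lt_q).ne')]
  exact abs_card_filter_values_sub_le T _ _

theorem sfCount_eq (S : Finset k) (c : k → k) (d : ℕ) :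
    (sfCount S c d : ℤ) = ∑ A ∈ upTo k (d / 2), moe A *
      (((monicSet k d).filter fun D => ∀ x ∈ S, D.eval x = c x).filter (A ^ 2 ∣ ·)).card := by
  have h : (sfCount S c d : ℤ) =
      ∑ D ∈ (monicSet k d).filter (fun D => ∀ x ∈ S, D.eval x = c x),
        ∑ A ∈ (upTo k (d / 2)).filter (fun A => A ^ 2 ∣ D), moe A := by
    rw [Finset.sum_congr rfl fun D hD => sum_moe_sq_dvd (Finset.filter_subset _ _ hD),
      ← Finset.sum_filter, Finset.sum_const, nsmul_one, Finset.filter_filter, sfCount]
    simp only [and_comm]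
  rw [h]
  simp only [Finset.sum_filter (fun A : k[X] => A ^ 2 ∣ _)]
  rw [Finset.sum_comm]
  exact Finset.sum_congr rfl fun A _ => by
    rw [← Finset.sum_filter, Finset.sum_const, nsmul_eq_mul, mul_comm]

theorem card_upTo_le (m : ℕ) : ((upTo k m).card : ℝ) ≤ 2 * (Fintype.card k : ℝ) ^ m := by
  have h : ((upTo k m).card : ℝ) = ∑ j ∈ Finset.range (m + 1), (Fintype.card k : ℝ) ^ j := by
    rw [Finset.card_eq_sum_ones, sum_upTo, Nat.cast_sum]
    refine Finset.sum_congr rfl fun j _ => ?_
    rw [← Finset.card_eq_sum_ones, card_monicSet, Nat.cast_pow]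
  rw [h]
  clear h
  induction m with
  | zero => simp
  | succ m ih =>
    rw [Finset.sum_range_succ]
    have h2 : (2 : ℝ) ≤ Fintype.card k := by exact_mod_cast Fintype.one_lt_card
    have := pow_nonneg (zero_le_two.trans h2) m
    rw [pow_succ (Fintype.card k : ℝ) m]
    nlinarith

/-- The density of one value. -/
def valueShare (z : k) : ℝ :=
  if z = 0 then 1 / ((Fintype.card k : ℝ) + 1)
  else (Fintype.card k : ℝ) / ((Fintype.card k : ℝ) ^ 2 - 1)

theorem series_valueWeight (S : Finset k) (c : k → k) :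
    weightedSeries (valueWeight S c) / (Fintype.card k : ℝ) ^ S.card =
      (1 - (Fintype.card k : ℝ)⁻¹) * ∏ x ∈ S, valueShare (c x) := by
  have hq := one_lt_q (k := k)
  rw [weightedSeries_eq, mul_div_assoc]
  refine congrArg _ ?_
  rw [← Finset.prod_subset (Finset.subset_univ S) fun x _ hx => by
    rw [valueWeight, if_neg hx, one_mul, div_self (one_sub_uval_pos (k := k)).ne'],
    ← Finset.prod_const, ← Finset.prod_div_distrib]
  refine Finset.prod_congr rfl fun x hx => ?_
  have h2 : (1 : ℝ) < (Fintype.card k : ℝ) ^ 2 := one_lt_pow₀ hq two_ne_zero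
  rw [valueWeight, if_pos hx, valueShare, uval]
  split_ifs
  · field_simp [(sub_pos.mpr h2).ne']
    ring
  · rw [zero_mul, sub_zero]
    field_simp [(sub_pos.mpr h2).ne']

/-- **Squarefree polynomials with prescribed values.** -/
theorem abs_sfCount_sub_le (S : Finset k) (c : k → k) (d : ℕ) :
    |(sfCount S c d : ℝ) - (Fintype.card k : ℝ) ^ d *
        ((1 - (Fintype.card k : ℝ)⁻¹) * ∏ x ∈ S, valueShare (c x))| ≤
      4 * (Fintype.card k : ℝ) ^ (d / 2) := by
  set q : ℝ := (Fintype.card k : ℝ) with hqdef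
  set w := valueWeight S c
  set f := fun n => weightedSum w n * uval k ^ n
  have hq : 1 < q := one_lt_q
  have hq0 : 0 < q := zero_lt_one.trans hq
  set m := d / 2
  have hfin : |(sfCount S c d : ℝ) - q ^ d / q ^ S.card * ∑ n ∈ Finset.range (m + 1), f n| ≤
      2 * q ^ m := by
    have hmain : q ^ d / q ^ S.card * ∑ n ∈ Finset.range (m + 1), f n =
        ∑ A ∈ upTo k m,
          (moe A : ℝ) * (q ^ (d - 2 * A.natDegree) * rootWeight w A / q ^ S.card) := by
      rw [sum_upTo, Finset.mul_sum]
      refine Finset.sum_congr rfl fun n hn => ?_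
      simp only [f, weightedSum, Finset.sum_mul, Finset.mul_sum]
      refine Finset.sum_congr rfl fun A hA => ?_
      rw [(mem_monicSet.mp hA).2, pow_sub₀ _ hq0.ne' (by simp at hn; omega), uval, ← hqdef,
        inv_pow, ← pow_mul]
      ring
    rw [hmain, ← Int.cast_natCast (sfCount S c d), sfCount_eq, Int.cast_sum,
      ← Finset.sum_sub_distrib]
    refine (Finset.abs_sum_le_sum_abs _ _).trans ((Finset.sum_le_card_nsmul _ _ 1 fun A hA => ?_
      ).trans (by rw [nsmul_one]; exact card_upTo_le m))
    obtain ⟨hm, hd⟩ := mem_upTo.mp hA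
    rw [Int.cast_mul, Int.cast_natCast, ← mul_sub, abs_mul]
    refine mul_le_one₀ ?_ (abs_nonneg _) (abs_card_sq_dvd_sub_le S c hm (by omega))
    exact_mod_cast abs_moe_le_one A
  have htail : |q ^ d / q ^ S.card * ∑' n, f (n + (m + 1))| ≤ 2 * q ^ m := by
    have hr : q⁻¹ < 1 := inv_lt_one_of_one_lt₀ hq
    have hgeo : Summable fun n => weightBound w * q⁻¹ ^ (n + (m + 1)) :=
      ((summable_nat_add_iff (f := fun n => q⁻¹ ^ n) (m + 1)).mpr
        (summable_geometric_of_lt_one (inv_nonneg.mpr hq0.le) hr)).mul_left _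
    have h1 : |∑' n, f (n + (m + 1))| ≤ ∑' n, weightBound w * q⁻¹ ^ (n + (m + 1)) :=
      (Real.norm_eq_abs _).symm.trans_le
        (tsum_of_norm_bounded hgeo.hasSum fun n => abs_term_series_le w _)
    have hhalf : (1 - q⁻¹)⁻¹ ≤ 2 := by
      rw [inv_le_comm₀ (sub_pos.mpr hr) two_pos]
      have h2 : (2 : ℝ) ≤ q := by simp only [q]; exact_mod_cast Fintype.one_lt_card
      have := inv_anti₀ two_pos h2
      linarith
    have h3 : ∑' n, weightBound w * q⁻¹ ^ (n + (m + 1)) ≤ q ^ S.card * q⁻¹ ^ (m + 1) * 2 := by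
      rw [show ∑' n, weightBound w * q⁻¹ ^ (n + (m + 1)) =
          weightBound w * q⁻¹ ^ (m + 1) * ∑' n, q⁻¹ ^ n by
        rw [← tsum_mul_left]; exact tsum_congr fun n => by rw [pow_add]; ring,
        tsum_geometric_of_lt_one (inv_nonneg.mpr hq0.le) hr]
      exact mul_le_mul (mul_le_mul_of_nonneg_right (weightBound_valueWeight_le S c)
        (by positivity)) hhalf (inv_nonneg.mpr (sub_pos.mpr hr).le) (by positivity)
    rw [abs_mul, abs_of_nonneg (by positivity)]
    refine (mul_le_mul_of_nonneg_left (h1.trans h3) (by positivity)).trans ?_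
    rw [show q ^ d / q ^ S.card * (q ^ S.card * q⁻¹ ^ (m + 1) * 2) = 2 * (q ^ d / q ^ (m + 1)) by
      rw [inv_pow]; field_simp]
    refine mul_le_mul_of_nonneg_left ?_ two_pos.le
    rw [div_le_iff₀ (by positivity), ← pow_add]
    exact pow_le_pow_right₀ hq.le (by omega)
  have hsplit := (summable_weighted w).sum_add_tsum_nat_add (m + 1)
  rw [← series_valueWeight, show q ^ d * (weightedSeries w / q ^ S.card) =
    q ^ d / q ^ S.card * weightedSeries w by ring, weightedSeries, ← hsplit, mul_add, ← sub_sub]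
  refine (abs_sub _ _).trans ?_
  linarith

/-- **The number of squarefree monic polynomials.** -/
theorem sfCount_empty (c : k → k) (n : ℕ) :
    (sfCount ∅ c (n + 2) : ℤ) =
      (Fintype.card k : ℤ) ^ (n + 2) - (Fintype.card k : ℤ) ^ (n + 1) := by
  rw [sfCount_eq, sum_upTo]
  have h : ∀ j ∈ Finset.range ((n + 2) / 2 + 1), ∑ A ∈ monicSet k j, moe A *
      ((((monicSet k (n + 2)).filter fun D => ∀ x ∈ (∅ : Finset k), D.eval x = c x).filter
        (A ^ 2 ∣ ·)).card : ℤ) =
      (∑ A ∈ monicSet k j, moe A) * (Fintype.card k : ℤ) ^ (n + 2 - 2 * j) := fun j hj => by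
    rw [Finset.sum_mul]
    refine Finset.sum_congr rfl fun A hA => ?_
    obtain ⟨hm, hd⟩ := mem_monicSet.mp hA
    simp only [Finset.notMem_empty, IsEmpty.forall_iff, implies_true, Finset.filter_true]
    rw [filter_dvd_monicSet (hm.pow 2) (by rw [natDegree_pow, hd]; simp at hj; omega),
      Finset.card_image_of_injective _ fun a b h => mul_left_cancel₀ (hm.pow 2).ne_zero h,
      card_monicSet, natDegree_pow, hd, Nat.cast_pow]
  rw [Finset.sum_congr rfl h, Finset.sum_eq_add_of_mem 0 1 (by simp) (by simp) zero_ne_one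
    fun j _ hj => by rw [sum_moe_monicSet, if_neg hj.1, if_neg hj.2, zero_mul]]
  rw [sum_moe_monicSet, sum_moe_monicSet, if_pos rfl, if_neg one_ne_zero, if_pos rfl]
  simp only [Nat.mul_zero, Nat.sub_zero, Nat.mul_one, Nat.add_sub_cancel]
  ring

end FA.KurlbergRudnick
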