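import Fermat.Agent.KurlbergRudnick.Count
import Mathlib.NumberTheory.LegendreSymbol.QuadraticChar.Basic

/-!
# The limit law of the number of points

The values at the `q` points of a random squarefree polynomial become independent as the degree
grows, so the character sum becomes a sum of `q` independent variables.
-/

set_option autoImplicit false
set_option linter.style.openClassical false
set_option linter.style.haveILetI false
set_option linter.unusedSectionVars false

noncomputable section

open scoped Classical Topology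

namespace FA.KurlbergRudnick

open Polynomial Filter

variable {k : Type*} [Field k] [Fintype k]

variable (k) in
/-- The squarefree monic polynomials of degree `d`. -/
def sfSet (d : ℕ) : Finset k[X] := (monicSet k d).filter Squarefree

theorem sum_sfSet {M : Type*} [AddCommMonoid M] (d : ℕ) (Φ : (k → k) → M) :
    ∑ D ∈ sfSet k d, Φ (fun x => D.eval x) = ∑ c : k → k, sfCount Finset.univ c d • Φ c := by
  rw [← Finset.sum_fiberwise (sfSet k d) fun (D : k[X]) x => D.eval x]
  refine Finset.sum_congr rfl fun c _ => ?_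
  have h : (sfSet k d).filter (fun D => (fun x => D.eval x) = c) =
      (monicSet k d).filter fun D => Squarefree D ∧ ∀ x ∈ (Finset.univ : Finset k),
        D.eval x = c x := by
    rw [sfSet, Finset.filter_filter]
    exact Finset.filter_congr fun D _ => by simp [funext_iff]
  rw [Finset.sum_congr rfl fun D hD => congrArg Φ (Finset.mem_filter.mp hD).2, Finset.sum_const,
    h, sfCount]

theorem card_sfSet (d : ℕ) (c : k → k) : (sfSet k d).card = sfCount ∅ c d := by
  rw [sfSet, sfCount]
  exact congrArg _ (Finset.filter_congr fun D _ => by simp)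

theorem tendsto_sfCount (S : Finset k) (c : k → k) :
    Tendsto (fun d => (sfCount S c d : ℝ) / (Fintype.card k : ℝ) ^ d) atTop
      (𝓝 ((1 - (Fintype.card k : ℝ)⁻¹) * ∏ x ∈ S, valueShare (c x))) := by
  have hq := one_lt_q (k := k)
  set q : ℝ := (Fintype.card k : ℝ)
  have hq0 : 0 < q := zero_lt_one.trans hq
  have h0 : Tendsto (fun d : ℕ => 4 * q⁻¹ ^ (d / 2)) atTop (𝓝 0) := by
    simpa using ((tendsto_pow_atTop_nhds_zero_of_lt_one (inv_nonneg.mpr hq0.le)
      (inv_lt_one_of_one_lt₀ hq)).comp
        (Nat.tendsto_div_const_atTop two_ne_zero)).const_mul 4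
  refine tendsto_iff_norm_sub_tendsto_zero.mpr (squeeze_zero (fun _ => norm_nonneg _)
    (fun d => ?_) h0)
  have hd : 0 < q ^ d := pow_pos hq0 d
  rw [Real.norm_eq_abs, div_sub' hd.ne', abs_div, abs_of_pos hd, div_le_iff₀ hd]
  refine (abs_sfCount_sub_le S c d).trans ?_
  rw [mul_assoc]
  refine mul_le_mul_of_nonneg_left ?_ (by norm_num)
  rw [inv_pow, ← div_eq_inv_mul, le_div_iff₀ (by positivity), ← pow_add]
  exact pow_le_pow_right₀ hq.le (by omega)

/-- **Independence of the values**: averages over the squarefree polynomials. -/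
theorem tendsto_average (Φ : (k → k) → ℝ) :
    Tendsto (fun d => (∑ D ∈ sfSet k d, Φ fun x => D.eval x) / ((sfSet k d).card : ℝ)) atTop
      (𝓝 (∑ c : k → k, (∏ x, valueShare (c x)) * Φ c)) := by
  have hq := one_lt_q (k := k)
  have hne : (1 - (Fintype.card k : ℝ)⁻¹) ≠ 0 :=
    (sub_pos.mpr (inv_lt_one_of_one_lt₀ hq)).ne'
  have h0 := tendsto_sfCount (k := k) ∅ fun _ => 0
  rw [Finset.prod_empty, mul_one] at h0
  have h1 : Tendsto (fun d => ∑ c : k → k,
      (sfCount Finset.univ c d : ℝ) / (Fintype.card k : ℝ) ^ d * Φ c) atTop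
      (𝓝 (∑ c : k → k, (1 - (Fintype.card k : ℝ)⁻¹) * (∏ x, valueShare (c x)) * Φ c)) :=
    tendsto_finsetSum _ fun c _ => (tendsto_sfCount Finset.univ c).mul_const (Φ c)
  have h2 := h1.div h0 hne
  simp only [mul_assoc, ← Finset.mul_sum, mul_div_cancel_left₀ _ hne] at h2
  refine h2.congr fun d => ?_
  have hd : (Fintype.card k : ℝ) ^ d ≠ 0 := pow_ne_zero _ (zero_lt_one.trans hq).ne'
  rw [sum_sfSet, card_sfSet d fun _ => 0]
  simp only [nsmul_eq_mul, Pi.div_apply, div_mul_eq_mul_div]
  rw [← Finset.sum_div, div_div_div_cancel_right₀ hd]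

/-- The law of one term. -/
def charShare (k : Type*) [Fintype k] (v : ℤ) : ℝ :=
  if v = 0 then 1 / ((Fintype.card k : ℝ) + 1)
  else (Fintype.card k : ℝ) / (2 * ((Fintype.card k : ℝ) + 1))

theorem sum_char_sq : ∑ z : k, (quadraticChar k z : ℝ) ^ 2 = (Fintype.card k : ℝ) - 1 := by
  rw [← Finset.sum_erase (a := (0 : k)) _ (by simp), Finset.sum_congr rfl fun z hz => ?_,
    Finset.sum_const, Finset.card_erase_of_mem (Finset.mem_univ _), Finset.card_univ,
    nsmul_eq_mul, mul_one, Nat.cast_sub Fintype.card_pos, Nat.cast_one]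
  exact_mod_cast quadraticChar_sq_one (Finset.ne_of_mem_erase hz)

theorem card_char_eq (hk : ringChar k ≠ 2) {v : ℤ} (hv : v = 1 ∨ v = -1) :
    2 * ((Finset.univ.filter fun z : k => quadraticChar k z = v).card : ℝ) =
      (Fintype.card k : ℝ) - 1 := by
  have h : ∀ z : k, 2 * (if quadraticChar k z = v then (1 : ℝ) else 0) =
      (quadraticChar k z : ℝ) ^ 2 + (v : ℝ) * quadraticChar k z := fun z => by
    rcases eq_or_ne z 0 with rfl | hz
    · rcases hv with rfl | rfl <;> simp
    · rcases quadraticChar_dichotomy hz with e | e <;> rcases hv with rfl | rfl <;>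
        norm_num [e]
  rw [← Finset.sum_boole, Finset.mul_sum, Finset.sum_congr rfl fun z _ => h z,
    Finset.sum_add_distrib, sum_char_sq, ← Finset.mul_sum, ← Int.cast_sum,
    quadraticChar_sum_zero hk, Int.cast_zero, mul_zero, add_zero]

theorem sum_share_fiber (hk : ringChar k ≠ 2) {v : ℤ} (hv : v ∈ ({-1, 0, 1} : Finset ℤ)) :
    ∑ z ∈ Finset.univ.filter (fun z : k => quadraticChar k z = v), valueShare z =
      charShare k v := by
  have hq := one_lt_q (k := k)
  rcases eq_or_ne v 0 with rfl | hv0
  · rw [charShare, if_pos rfl, Finset.sum_eq_single_of_mem 0 (by simp) fun z hz hne =>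
      absurd (quadraticChar_eq_zero_iff.mp (Finset.mem_filter.mp hz).2) hne]
    simp [valueShare]
  have hv' : v = 1 ∨ v = -1 := by simp at hv; tauto
  have hmem : ∀ z ∈ Finset.univ.filter (fun z : k => quadraticChar k z = v),
      valueShare z = (Fintype.card k : ℝ) / ((Fintype.card k : ℝ) ^ 2 - 1) := fun z hz => by
    rw [valueShare, if_neg fun h => hv0 ?_]
    rw [← (Finset.mem_filter.mp hz).2, h, quadraticChar_zero]
  rw [Finset.sum_congr rfl hmem, Finset.sum_const, nsmul_eq_mul, charShare, if_neg hv0,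
    ← mul_div_assoc, div_eq_div_iff (by nlinarith) (by positivity)]
  linear_combination ((Fintype.card k : ℝ) * ((Fintype.card k : ℝ) + 1)) * card_char_eq hk hv'

theorem sum_prod_fiber (hk : ringChar k ≠ 2) {e : k → ℤ}
    (he : e ∈ Fintype.piFinset fun _ : k => ({-1, 0, 1} : Finset ℤ)) :
    ∑ c ∈ Finset.univ.filter (fun c : k → k => (fun x => quadraticChar k (c x)) = e),
      ∏ x, valueShare (c x) = ∏ x, charShare k (e x) := by
  rw [← Finset.prod_congr rfl fun x _ => sum_share_fiber hk (Fintype.mem_piFinset.mp he x),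
    Finset.prod_univ_sum]
  refine Finset.sum_congr (Finset.ext fun c => ?_) fun _ _ => rfl
  simp [funext_iff]

/-- **The limit law of the character sum.** -/
theorem tendsto_law (hk : ringChar k ≠ 2) (s : ℤ) :
    Tendsto (fun d => (((sfSet k d).filter fun D => ∑ x, quadraticChar k (D.eval x) = s).card : ℝ) /
        ((sfSet k d).card : ℝ)) atTop
      (𝓝 (∑ e ∈ (Fintype.piFinset fun _ : k => ({-1, 0, 1} : Finset ℤ)).filter
        (fun e => ∑ x, e x = s), ∏ x, charShare k (e x))) := by
  have h := tendsto_average fun c : k → k => if ∑ x, quadraticChar k (c x) = s then (1 : ℝ) else 0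
  simp only [Finset.sum_boole, mul_ite, mul_one, mul_zero, ← Finset.sum_filter] at h
  convert h using 2
  have hmaps : ∀ c : k → k, (fun x => quadraticChar k (c x)) ∈
      Fintype.piFinset fun _ : k => ({-1, 0, 1} : Finset ℤ) := fun c =>
    Fintype.mem_piFinset.mpr fun x => by
      rcases eq_or_ne (c x) 0 with e | e
      · simp [e]
      · rcases quadraticChar_dichotomy e with e' | e' <;> simp [e']
  symm
  rw [← Finset.sum_fiberwise_of_maps_to
    (s := Finset.univ.filter fun c : k → k => ∑ x, quadraticChar k (c x) = s)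
    (t := (Fintype.piFinset fun _ : k => ({-1, 0, 1} : Finset ℤ)).filter fun e => ∑ x, e x = s)
    (g := fun (c : k → k) x => quadraticChar k (c x)) fun c hc => Finset.mem_filter.mpr
      ⟨hmaps c, (Finset.mem_filter.mp hc).2⟩]
  refine Finset.sum_congr rfl fun e he => ?_
  rw [← sum_prod_fiber hk (Finset.mem_filter.mp he).1, Finset.filter_filter]
  exact Finset.sum_congr (Finset.filter_congr fun c _ =>
    ⟨fun h => h.2,
      fun h => ⟨(congrArg (fun g => ∑ x, g x) h).trans (Finset.mem_filter.mp he).2, h⟩⟩)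
    fun _ _ => rfl

theorem sum_valueShare (hk : ringChar k ≠ 2) :
    ∑ z : k, valueShare z = 1 ∧ ∑ z : k, valueShare z * (quadraticChar k z : ℝ) = 0 ∧
      ∑ z : k, valueShare z * (quadraticChar k z : ℝ) ^ 2 =
        (Fintype.card k : ℝ) / ((Fintype.card k : ℝ) + 1) := by
  have hq := one_lt_q (k := k)
  have hne : (Fintype.card k : ℝ) ^ 2 - 1 ≠ 0 := by nlinarith
  set W := (Fintype.card k : ℝ) / ((Fintype.card k : ℝ) ^ 2 - 1) with hW
  have h : ∀ z : k, valueShare z =
      W * (quadraticChar k z : ℝ) ^ 2 +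
        (1 / ((Fintype.card k : ℝ) + 1)) * (if z = 0 then 1 else 0) := fun z => by
    rcases eq_or_ne z 0 with rfl | hz
    · simp [valueShare]
    · rcases quadraticChar_dichotomy hz with e | e <;> simp [valueShare, hz, e, hW]
  have hχ : ∀ z : k, valueShare z * (quadraticChar k z : ℝ) = W * quadraticChar k z := fun z => by
    rcases eq_or_ne z 0 with rfl | hz
    · simp
    · simp [valueShare, hz, hW]
  refine ⟨?_, ?_, ?_⟩
  · rw [Finset.sum_congr rfl fun z _ => h z, Finset.sum_add_distrib, ← Finset.mul_sum,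
      sum_char_sq, ← Finset.mul_sum, Finset.sum_ite_eq', if_pos (Finset.mem_univ _), hW]
    field_simp
    ring
  · rw [Finset.sum_congr rfl fun z _ => hχ z, ← Finset.mul_sum, ← Int.cast_sum,
      quadraticChar_sum_zero hk, Int.cast_zero, mul_zero]
  · rw [Finset.sum_congr rfl fun z _ => (by
      rw [pow_two, ← mul_assoc, hχ, mul_assoc, ← pow_two] :
        valueShare z * (quadraticChar k z : ℝ) ^ 2 = W * (quadraticChar k z : ℝ) ^ 2),
      ← Finset.mul_sum, sum_char_sq, hW]
    field_simp
    ring

theorem sum_prod_mul (g : k → k → ℝ) :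
    ∑ c : k → k, (∏ x, valueShare (c x)) * ∏ x, g x (c x) =
      ∏ x, ∑ z, valueShare z * g x z := by
  rw [Finset.prod_univ_sum, Fintype.piFinset_univ]
  exact Finset.sum_congr rfl fun c _ => (Finset.prod_mul_distrib).symm

/-- **The first two moments.** -/
theorem moments (hk : ringChar k ≠ 2) :
    ∑ c : k → k, (∏ x, valueShare (c x)) * ∑ x, (quadraticChar k (c x) : ℝ) = 0 ∧
      ∑ c : k → k, (∏ x, valueShare (c x)) * (∑ x, (quadraticChar k (c x) : ℝ)) ^ 2 =
        (Fintype.card k : ℝ) ^ 2 / ((Fintype.card k : ℝ) + 1) := by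
  obtain ⟨h1, h2, h3⟩ := sum_valueShare hk
  have e1 : ∀ x : k, ∑ c : k → k, (∏ z, valueShare (c z)) * (quadraticChar k (c x) : ℝ) = 0 :=
    fun x => by
      have h := sum_prod_mul fun z j => if z = x then (quadraticChar k j : ℝ) else 1
      simp only [Finset.prod_ite_eq', Finset.mem_univ, if_true] at h
      rw [h, Finset.prod_eq_zero (Finset.mem_univ x) (by simpa using h2)]
  have e2 : ∀ x y : k, ∑ c : k → k,
      (∏ z, valueShare (c z)) * ((quadraticChar k (c x) : ℝ) * quadraticChar k (c y)) =
        if x = y then (Fintype.card k : ℝ) / ((Fintype.card k : ℝ) + 1) else 0 := fun x y => by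
    have h := sum_prod_mul fun z j => (if z = x then (quadraticChar k j : ℝ) else 1) *
      if z = y then (quadraticChar k j : ℝ) else 1
    simp only [Finset.prod_mul_distrib, Finset.prod_ite_eq', Finset.mem_univ, if_true] at h
    rw [h]
    split_ifs with hxy
    · subst hxy
      rw [Finset.prod_eq_single_of_mem x (Finset.mem_univ x) fun z _ hz => by
        simpa [hz] using h1]
      simpa [← pow_two] using h3
    · exact Finset.prod_eq_zero (Finset.mem_univ x) (by simpa [hxy] using h2)
  constructor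
  · simp only [Finset.mul_sum]
    rw [Finset.sum_comm]
    exact Finset.sum_eq_zero fun x _ => e1 x
  · simp only [pow_two (∑ x, _), Finset.sum_mul, Finset.mul_sum]
    rw [Finset.sum_comm]
    rw [Finset.sum_congr rfl fun x _ => Finset.sum_comm,
      Finset.sum_congr rfl fun x _ => Finset.sum_congr rfl fun y _ => e2 y x]
    simp only [Finset.sum_ite_eq', Finset.mem_univ, if_true, Finset.sum_const, Finset.card_univ,
      nsmul_eq_mul]
    ring

/-- **Every pattern of values occurs.** -/
theorem exists_values {d : ℕ} (hd : 4 * Fintype.card k + 7 ≤ d) (c : k → k) :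
    ∃ D ∈ sfSet k d, ∀ x, D.eval x = c x := by
  suffices h : 0 < sfCount Finset.univ c d by
    obtain ⟨D, hD⟩ := Finset.card_pos.mp h
    obtain ⟨hm, hs, hv⟩ := Finset.mem_filter.mp hD
    exact ⟨D, Finset.mem_filter.mpr ⟨hm, hs⟩, fun x => hv x (Finset.mem_univ x)⟩
  have h2 : (2 : ℝ) ≤ Fintype.card k := by exact_mod_cast Fintype.one_lt_card
  set n := Fintype.card k
  set q : ℝ := (n : ℝ)
  have hW : (q ^ 2)⁻¹ ^ n ≤ ∏ x, valueShare (c x) := by
    rw [show n = (Finset.univ : Finset k).card from rfl, ← Finset.prod_const]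
    refine Finset.prod_le_prod (fun _ _ => by positivity) fun x _ => ?_
    rw [valueShare, inv_eq_one_div]
    split_ifs
    · exact one_div_le_one_div_of_le (by positivity) (by nlinarith)
    · rw [div_le_div_iff₀ (by positivity) (by nlinarith), one_mul]
      nlinarith
  have h := (abs_le.mp (abs_sfCount_sub_le Finset.univ c d)).1
  obtain ⟨j, hj, rfl⟩ : ∃ j, d / 2 + 4 ≤ j ∧ d = j + 2 * n :=
    ⟨d - 2 * n, by omega, by omega⟩
  have hmain : q ^ j / 2 ≤ q ^ (j + 2 * n) * ((1 - q⁻¹) * ∏ x, valueShare (c x)) := by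
    have hhalf : 1 / 2 ≤ 1 - q⁻¹ := by
      have := inv_anti₀ two_pos h2
      linarith
    calc q ^ j / 2 = q ^ (j + 2 * n) * (1 / 2 * (q ^ 2)⁻¹ ^ n) := by
          rw [inv_pow, ← pow_mul, pow_add]; field_simp
      _ ≤ _ := mul_le_mul_of_nonneg_left
          (mul_le_mul hhalf hW (by positivity) ((by norm_num : (0 : ℝ) ≤ 1 / 2).trans hhalf))
          (by positivity)
  have hbig : 16 * q ^ ((j + 2 * n) / 2) ≤ q ^ j := by
    obtain ⟨i, hi⟩ : ∃ i, j = (j + 2 * n) / 2 + 4 + i := ⟨j - ((j + 2 * n) / 2 + 4), by omega⟩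
    rw [hi, pow_add, pow_add, ← hi, mul_comm (16 : ℝ), mul_assoc]
    refine mul_le_mul_of_nonneg_left ?_ (by positivity)
    refine le_trans ?_ (le_mul_of_one_le_right (by positivity) (one_le_pow₀ (by linarith)))
    exact le_trans (by norm_num) (pow_le_pow_left₀ zero_le_two h2 4)
  have hp : (0 : ℝ) < q ^ ((j + 2 * n) / 2) := by positivity
  have : (0 : ℝ) < sfCount Finset.univ c (j + 2 * n) := by linarith
  exact_mod_cast this

/-- The affine points of `y ^ 2 = D (x)`. -/
theorem natCard_points (hk : ringChar k ≠ 2) (D : k[X]) :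
    (Nat.card {p : k × k // p.2 ^ 2 = D.eval p.1} : ℤ) =
      Fintype.card k + ∑ x, quadraticChar k (D.eval x) := by
  have h : ∀ x : k, (Nat.card {y : k // y ^ 2 = D.eval x} : ℤ) =
      quadraticChar k (D.eval x) + 1 := fun x => by
    rw [← quadraticChar_card_sqrts hk, Set.toFinset_ofPred, Nat.card_eq_fintype_card,
      Fintype.card_subtype]
  rw [Nat.card_congr (Equiv.subtypeProdEquivSigmaSubtype fun x y => y ^ 2 = D.eval x),
    Nat.card_sigma, Nat.cast_sum, Finset.sum_congr rfl fun x _ => h x, Finset.sum_add_distrib,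
    Finset.sum_const, Finset.card_univ, nsmul_one, add_comm]

end FA.KurlbergRudnick
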