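import Fermat.Agent.SquarefreeFF.Main

/-!
# The Moebius function on the monic polynomials of a fixed degree

The squares dividing a polynomial and the divisors of a polynomial are detected by sums of the
Moebius function, so that its sum over the monic polynomials of degree `n` is `1`, `-q`, `0`, ...
-/

set_option autoImplicit false
set_option linter.style.openClassical false
set_option linter.style.haveILetI false
set_option linter.unusedSectionVars false

noncomputable section

open scoped Classical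

namespace FA.KurlbergRudnick

open Polynomial UniqueFactorizationMonoid

variable {k : Type*} [Field k] [Fintype k]

variable (k) in
/-- The monic polynomials of degree `n`. -/
def monicSet (n : ℕ) : Finset k[X] :=
  (Set.finite_range fun a : SquarefreeFF.Deg k n => X ^ n + a.1).toFinset

theorem mem_monicSet {n : ℕ} {D : k[X]} : D ∈ monicSet k n ↔ D.Monic ∧ D.natDegree = n := by
  simp only [monicSet, Set.Finite.mem_toFinset, Set.mem_range]
  constructor
  · rintro ⟨a, rfl⟩
    have ha := mem_degreeLT.mp a.2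
    exact ⟨monic_X_pow_add ha, natDegree_eq_of_degree_eq_some (by
      rw [degree_add_eq_left_of_degree_lt (by rw [degree_X_pow]; exact ha), degree_X_pow])⟩
  · rintro ⟨hm, rfl⟩
    have hdeg : D.degree = (D.natDegree : WithBot ℕ) := degree_eq_natDegree hm.ne_zero
    have h := degree_sub_lt_left (hdeg.trans (degree_X_pow D.natDegree).symm) hm.ne_zero
      (by rw [hm.leadingCoeff, (monic_X_pow _).leadingCoeff])
    exact ⟨⟨D - X ^ D.natDegree, mem_degreeLT.mpr (hdeg ▸ h)⟩, by simp⟩

theorem card_monicSet (n : ℕ) : (monicSet k n).card = Fintype.card k ^ n := by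
  rw [← SquarefreeFF.natCard_deg, monicSet, ← Set.ncard_eq_toFinset_card _ (Set.finite_range _),
    ← Nat.card_coe_set_eq, Nat.card_range_of_injective]
  exact fun a b h => Subtype.ext (add_left_cancel h)

theorem monicSet_zero : monicSet k 0 = {1} := by
  ext D
  rw [mem_monicSet, Finset.mem_singleton]
  exact ⟨fun h => h.1.natDegree_eq_zero.mp h.2, fun h => h ▸ ⟨monic_one, natDegree_one⟩⟩

/-- The multiples of a monic polynomial. -/
theorem filter_dvd_monicSet {M : k[X]} (hM : M.Monic) {n : ℕ} (hn : M.natDegree ≤ n) :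
    (monicSet k n).filter (M ∣ ·) = (monicSet k (n - M.natDegree)).image (M * ·) := by
  ext D
  simp only [Finset.mem_filter, Finset.mem_image, mem_monicSet]
  constructor
  · rintro ⟨⟨hD, hd⟩, B, rfl⟩
    have hB := hM.of_mul_monic_left hD
    rw [hM.natDegree_mul hB] at hd
    exact ⟨B, ⟨hB, by omega⟩, rfl⟩
  · rintro ⟨B, ⟨hB, hd⟩, rfl⟩
    exact ⟨⟨hM.mul hB, by rw [hM.natDegree_mul hB]; omega⟩, dvd_mul_right M B⟩

theorem sum_filter_dvd_monicSet {R : Type*} [AddCommMonoid R] {M : k[X]} (hM : M.Monic) {n : ℕ}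
    (hn : M.natDegree ≤ n) (f : k[X] → R) :
    ∑ D ∈ (monicSet k n).filter (M ∣ ·), f D =
      ∑ B ∈ monicSet k (n - M.natDegree), f (M * B) := by
  rw [filter_dvd_monicSet hM hn,
    Finset.sum_image fun a _ b _ h => mul_left_cancel₀ hM.ne_zero h]

variable (k) in
/-- The monic polynomials of degree at most `n`. -/
def upTo (n : ℕ) : Finset k[X] := (Finset.range (n + 1)).biUnion (monicSet k)

theorem mem_upTo {n : ℕ} {D : k[X]} : D ∈ upTo k n ↔ D.Monic ∧ D.natDegree ≤ n := by
  simp only [upTo, Finset.mem_biUnion, Finset.mem_range, mem_monicSet]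
  exact ⟨fun ⟨j, hj, hm, hd⟩ => ⟨hm, by omega⟩, fun h => ⟨_, by omega, h.1, rfl⟩⟩

theorem sum_upTo {R : Type*} [AddCommMonoid R] (n : ℕ) (f : k[X] → R) :
    ∑ D ∈ upTo k n, f D = ∑ j ∈ Finset.range (n + 1), ∑ D ∈ monicSet k j, f D :=
  Finset.sum_biUnion fun _ _ _ _ hne => Finset.disjoint_left.mpr fun _ hi hj =>
    hne ((mem_monicSet.mp hi).2.symm.trans (mem_monicSet.mp hj).2)

/-- The Moebius function. -/
def moe (A : k[X]) : ℤ := if Squarefree A then (-1) ^ (normalizedFactors A).card else 0

theorem moe_one : moe (1 : k[X]) = 1 := by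
  rw [moe, if_pos squarefree_one, normalizedFactors_one]
  simp

theorem abs_moe_le_one (A : k[X]) : |moe A| ≤ 1 := by
  unfold moe
  split_ifs <;> simp

theorem moe_irreducible_mul {P A : k[X]} (hP : Irreducible P) (h : ¬ P ∣ A) :
    moe (P * A) = -moe A := by
  have hA : A ≠ 0 := fun h0 => h (h0 ▸ dvd_zero P)
  have hsq : Squarefree (P * A) ↔ Squarefree A := by
    rw [squarefree_mul_iff]
    exact ⟨fun h' => h'.2.2, fun h' => ⟨hP.isRelPrime_iff_not_dvd.mpr h, hP.squarefree, h'⟩⟩
  unfold moe
  by_cases hs : Squarefree A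
  · rw [if_pos (hsq.mpr hs), if_pos hs, normalizedFactors_mul hP.ne_zero hA,
      normalizedFactors_irreducible hP, Multiset.card_add, Multiset.card_singleton, pow_add]
    ring
  · rw [if_neg (fun h' => hs (hsq.mp h')), if_neg hs, neg_zero]

theorem moe_mul_of_dvd {P A : k[X]} (hP : Irreducible P) (h : P ∣ A) : moe (P * A) = 0 :=
  if_neg fun hs => hP.not_isUnit (hs P (mul_dvd_mul_left P h))

/-- Squarefree `A` without `P` and their products with `P` cancel. -/
theorem sum_moe_eq_zero {P : k[X]} (hP : Irreducible P) {s : Finset k[X]}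
    (hup : ∀ A ∈ s, Squarefree A → ¬ P ∣ A → P * A ∈ s) (hdown : ∀ A, P * A ∈ s → A ∈ s) :
    ∑ A ∈ s, moe A = 0 := by
  have hne : ∀ A ∈ s, moe A ≠ 0 → Squarefree A := fun A _ h =>
    not_not.mp fun hs => h (if_neg hs)
  rw [← Finset.sum_filter_of_ne hne,
    ← Finset.sum_filter_not_add_sum_filter _ (P ∣ ·)]
  have himg : ((s.filter Squarefree).filter (P ∣ ·)) =
      ((s.filter Squarefree).filter fun A => ¬ P ∣ A).image (P * ·) := by
    ext A
    simp only [Finset.mem_filter, Finset.mem_image]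
    constructor
    · rintro ⟨⟨hA, hs⟩, B, rfl⟩
      exact ⟨B, ⟨⟨hdown B hA, hs.squarefree_of_dvd (dvd_mul_left B P)⟩,
        fun h => hP.not_isUnit (hs P (mul_dvd_mul_left P h))⟩, rfl⟩
    · rintro ⟨B, ⟨⟨hB, hs⟩, hn⟩, rfl⟩
      exact ⟨⟨hup B hB hs hn, squarefree_mul_iff.mpr
        ⟨hP.isRelPrime_iff_not_dvd.mpr hn, hP.squarefree, hs⟩⟩, dvd_mul_right P B⟩
  rw [himg, Finset.sum_image fun a _ b _ h => mul_left_cancel₀ hP.ne_zero h,
    ← Finset.sum_add_distrib]
  exact Finset.sum_eq_zero fun A hA => by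
    rw [moe_irreducible_mul hP (Finset.mem_filter.mp hA).2, add_neg_cancel]

/-- **The squares dividing a polynomial.** -/
theorem sum_moe_sq_dvd {D : k[X]} {d : ℕ} (hD : D ∈ monicSet k d) :
    ∑ A ∈ (upTo k (d / 2)).filter (fun A => A ^ 2 ∣ D), moe A =
      if Squarefree D then 1 else 0 := by
  obtain ⟨hDm, hDd⟩ := mem_monicSet.mp hD
  split_ifs with hs
  · rw [Finset.sum_eq_single_of_mem 1 (Finset.mem_filter.mpr
      ⟨mem_upTo.mpr ⟨monic_one, by simp⟩, by simp⟩) fun A hA hne => absurd ?_ hne, moe_one]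
    obtain ⟨hA, hdvd⟩ := Finset.mem_filter.mp hA
    exact (mem_upTo.mp hA).1.isUnit_iff.mp (hs A (pow_two A ▸ hdvd))
  · simp only [SquarefreeFF.squarefree_iff_forall, not_forall, not_not] at hs
    obtain ⟨P, hPm, hP, hPD⟩ := hs
    refine sum_moe_eq_zero hP (fun A hA _ hn => ?_) fun A hA => ?_
    · obtain ⟨hA, hAD⟩ := Finset.mem_filter.mp hA
      have hdvd : (P * A) ^ 2 ∣ D := mul_pow P A 2 ▸
        ((hP.coprime_iff_not_dvd.mpr hn).pow (m := 2) (n := 2)).mul_dvd hPD hAD
      have hm := hPm.mul (mem_upTo.mp hA).1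
      have hdeg := natDegree_le_of_dvd hdvd hDm.ne_zero
      rw [natDegree_pow, hDd] at hdeg
      exact Finset.mem_filter.mpr ⟨mem_upTo.mpr ⟨hm, by omega⟩, hdvd⟩
    · obtain ⟨hA, hAD⟩ := Finset.mem_filter.mp hA
      obtain ⟨hm, hdeg⟩ := mem_upTo.mp hA
      have hAm := hPm.of_mul_monic_left hm
      rw [hPm.natDegree_mul hAm] at hdeg
      exact Finset.mem_filter.mpr ⟨mem_upTo.mpr ⟨hAm, by omega⟩,
        (pow_dvd_pow_of_dvd (dvd_mul_left A P) 2).trans hAD⟩

/-- **The divisors of a polynomial.** -/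
theorem sum_moe_dvd {D : k[X]} {n : ℕ} (hD : D ∈ monicSet k n) :
    ∑ A ∈ (upTo k n).filter (· ∣ D), moe A = if n = 0 then 1 else 0 := by
  obtain ⟨hDm, hDd⟩ := mem_monicSet.mp hD
  split_ifs with h0
  · rw [Finset.sum_eq_single_of_mem 1 (Finset.mem_filter.mpr
      ⟨mem_upTo.mpr ⟨monic_one, by simp⟩, one_dvd D⟩) fun A hA hne => absurd ?_ hne, moe_one]
    obtain ⟨hAm, hAd⟩ := mem_upTo.mp (Finset.mem_filter.mp hA).1
    exact hAm.natDegree_eq_zero.mp (by omega)
  · obtain ⟨P', hP', hPD'⟩ := Polynomial.exists_irreducible_of_natDegree_ne_zero (f := D)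
      (by omega)
    have hPm := monic_normalize hP'.ne_zero
    have hP : Irreducible (normalize P') := (normalize_associated P').symm.irreducible hP'
    have hPD : normalize P' ∣ D := normalize_dvd_iff.mpr hPD'
    refine sum_moe_eq_zero hP (fun A hA _ hn => ?_) fun A hA => ?_
    · obtain ⟨hA, hAD⟩ := Finset.mem_filter.mp hA
      have hdvd : normalize P' * A ∣ D := (hP.coprime_iff_not_dvd.mpr hn).mul_dvd hPD hAD
      have hdeg := natDegree_le_of_dvd hdvd hDm.ne_zero
      exact Finset.mem_filter.mpr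
        ⟨mem_upTo.mpr ⟨hPm.mul (mem_upTo.mp hA).1, by omega⟩, hdvd⟩
    · obtain ⟨hA, hAD⟩ := Finset.mem_filter.mp hA
      obtain ⟨hm, hdeg⟩ := mem_upTo.mp hA
      have hAm := hPm.of_mul_monic_left hm
      rw [hPm.natDegree_mul hAm] at hdeg
      exact Finset.mem_filter.mpr ⟨mem_upTo.mpr ⟨hAm, by omega⟩, dvd_of_mul_left_dvd hAD⟩

/-- **The sums of the Moebius function.** -/
theorem sum_moe_monicSet (n : ℕ) :
    ∑ A ∈ monicSet k n, moe A =
      if n = 0 then 1 else if n = 1 then -(Fintype.card k : ℤ) else 0 := by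
  induction n using Nat.strong_induction_on with
  | _ n ih =>
    have key : ∑ j ∈ Finset.range (n + 1),
        (Fintype.card k : ℤ) ^ (n - j) * ∑ A ∈ monicSet k j, moe A =
          if n = 0 then 1 else 0 := by
      have h := Finset.sum_congr (s₁ := monicSet k n) rfl fun D hD => sum_moe_dvd hD
      rw [Finset.sum_const, card_monicSet] at h
      simp only [Finset.sum_filter] at h
      rw [Finset.sum_comm, sum_upTo] at h
      have h2 : (if n = 0 then (1 : ℤ) else 0) =
          Fintype.card k ^ n • if n = 0 then (1 : ℤ) else 0 := by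
        split_ifs with h0 <;> simp [*]
      rw [h2, ← h]
      refine Finset.sum_congr rfl fun j hj => ?_
      rw [Finset.mul_sum]
      refine Finset.sum_congr rfl fun A hA => ?_
      obtain ⟨hAm, hAd⟩ := mem_monicSet.mp hA
      rw [← Finset.sum_filter, sum_filter_dvd_monicSet hAm (by rw [hAd]; simp at hj; omega),
        Finset.sum_const, card_monicSet, hAd, nsmul_eq_mul]
      push_cast
      rfl
    rw [Finset.sum_range_succ] at key
    simp only [Nat.sub_self, pow_zero, one_mul] at key
    rcases n with _ | _ | n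
    · simpa using key
    · simp [monicSet_zero, moe_one] at key ⊢
      linarith
    · rw [if_neg (by omega), if_neg (by omega)]
      rw [if_neg (by omega), Finset.sum_range_succ', Finset.sum_range_succ'] at key
      rw [Finset.sum_eq_zero fun j hj => ?_, zero_add] at key
      · rw [ih (0 + 1) (by omega), ih 0 (by omega)] at key
        simp only [zero_add, if_pos, one_ne_zero, if_false, Nat.sub_zero] at key
        rw [show n + 1 + 1 - 1 = n + 1 by omega, mul_one, pow_succ (_ : ℤ) (n + 1)] at key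
        linarith
      · rw [ih (j + 1 + 1) (by simp at hj; omega), if_neg (by omega), if_neg (by omega), mul_zero]

end FA.KurlbergRudnick
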