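import Fermat.Agent.KurlbergRudnick.Moebius

/-!
# The weighted series of the Moebius function

With a weight `w x` for each root `x`, the series of `μ (A) q ^ (-2 deg A)` is
`(1 - 1 / q) ∏ (1 - w x / q ^ 2) / (1 - 1 / q ^ 2)`.
-/

set_option autoImplicit false
set_option linter.style.openClassical false
set_option linter.style.haveILetI false
set_option linter.unusedSectionVars false

noncomputable section

open scoped Classical

namespace FA.KurlbergRudnick

open Polynomial

variable {k : Type*} [Field k] [Fintype k]

/-- The product of the weights of the roots. -/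
def rootWeight (w : k → ℝ) (A : k[X]) : ℝ := ∏ x, if A.IsRoot x then w x else 1

/-- The largest size of a product of weights. -/
def weightBound (w : k → ℝ) : ℝ := ∏ x, max 1 |w x|

/-- The weighted sum in degree `n`. -/
def weightedSum (w : k → ℝ) (n : ℕ) : ℝ := ∑ A ∈ monicSet k n, (moe A : ℝ) * rootWeight w A

variable (k) in
/-- The variable of the series. -/
def uval : ℝ := ((Fintype.card k : ℝ) ^ 2)⁻¹

/-- The weighted series. -/
def weightedSeries (w : k → ℝ) : ℝ := ∑' n, weightedSum w n * uval k ^ n

theorem one_lt_q : (1 : ℝ) < Fintype.card k := by exact_mod_cast Fintype.one_lt_card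

theorem abs_term_le (w : k → ℝ) (A : k[X]) :
    |(moe A : ℝ) * rootWeight w A| ≤ weightBound w := by
  rw [abs_mul]
  refine le_trans (mul_le_of_le_one_left (abs_nonneg _) ?_) ?_
  · exact_mod_cast abs_moe_le_one A
  rw [rootWeight, Finset.abs_prod]
  refine Finset.prod_le_prod (fun x _ => abs_nonneg _) fun x _ => ?_
  split_ifs
  · exact le_max_right _ _
  · simp

theorem abs_weightedSum_le (w : k → ℝ) (n : ℕ) :
    |weightedSum w n| ≤ (Fintype.card k : ℝ) ^ n * weightBound w := by
  refine (Finset.abs_sum_le_sum_abs _ _).trans ((Finset.sum_le_card_nsmul _ _ _ fun A _ =>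
    abs_term_le w A).trans (le_of_eq ?_))
  rw [card_monicSet, nsmul_eq_mul, Nat.cast_pow]

theorem abs_term_series_le (w : k → ℝ) (n : ℕ) :
    |weightedSum w n * uval k ^ n| ≤ weightBound w * ((Fintype.card k : ℝ)⁻¹) ^ n := by
  have hq : (0 : ℝ) < Fintype.card k := zero_lt_one.trans one_lt_q
  rw [abs_mul, abs_of_nonneg (show (0 : ℝ) ≤ uval k ^ n by unfold uval; positivity)]
  refine (mul_le_mul_of_nonneg_right (abs_weightedSum_le w n) (by unfold uval; positivity)).trans
    (le_of_eq ?_)
  rw [mul_comm _ (weightBound w), mul_assoc, ← mul_pow, uval]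
  congr 2
  field_simp

theorem summable_weighted (w : k → ℝ) : Summable fun n => weightedSum w n * uval k ^ n :=
  Summable.of_abs (Summable.of_nonneg_of_le (fun _ => abs_nonneg _) (abs_term_series_le w)
    ((summable_geometric_of_lt_one (by positivity) (inv_lt_one_of_one_lt₀ one_lt_q)).mul_left _))

theorem rootWeight_one_weights (A : k[X]) : rootWeight (fun _ => 1) A = 1 := by
  simp [rootWeight]

theorem weightedSum_zero (w : k → ℝ) : weightedSum w 0 = 1 := by
  simp [weightedSum, monicSet_zero, moe_one, rootWeight]

/-- Splitting off the root `x`. -/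
theorem weightedSum_succ (w : k → ℝ) (x : k) (n : ℕ) :
    weightedSum w (n + 1) =
      weightedSum (Function.update w x 0) (n + 1) -
        w x * weightedSum (Function.update w x 0) n := by
  have h0 : ∀ A : k[X], A.IsRoot x → rootWeight (Function.update w x 0) A = 0 := fun A hA =>
    Finset.prod_eq_zero (Finset.mem_univ x) (by rw [if_pos hA, Function.update_self])
  have h1 : ∀ A : k[X], ¬ A.IsRoot x → rootWeight (Function.update w x 0) A = rootWeight w A :=
    fun A hA => Finset.prod_congr rfl fun y _ => by
      rcases eq_or_ne y x with rfl | hy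
      · rw [if_neg hA, if_neg hA]
      · simp [hy]
  rw [weightedSum, weightedSum,
    ← Finset.sum_filter_add_sum_filter_not _ (fun A : k[X] => X - C x ∣ A),
    ← Finset.sum_filter_add_sum_filter_not (monicSet k (n + 1))
      (fun A : k[X] => X - C x ∣ A) (fun A => (moe A : ℝ) * rootWeight (Function.update w x 0) A)]
  rw [Finset.sum_eq_zero (s := (monicSet k (n + 1)).filter fun A : k[X] => X - C x ∣ A)
    (f := fun A => (moe A : ℝ) * rootWeight (Function.update w x 0) A) fun A hA => by
      rw [h0 A (dvd_iff_isRoot.mp (Finset.mem_filter.mp hA).2), mul_zero]]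
  rw [zero_add, add_comm]
  refine (congrArg₂ (· + ·) (Finset.sum_congr rfl fun A hA => ?_) ?_).trans
    (sub_eq_add_neg _ _).symm
  · rw [h1 A fun h => (Finset.mem_filter.mp hA).2 (dvd_iff_isRoot.mpr h)]
  rw [sum_filter_dvd_monicSet (monic_X_sub_C x) (by rw [natDegree_X_sub_C]; omega),
    natDegree_X_sub_C, Nat.add_sub_cancel, weightedSum, Finset.mul_sum, ← Finset.sum_neg_distrib]
  refine Finset.sum_congr rfl fun B _ => ?_
  have hP := irreducible_X_sub_C x
  by_cases hB : B.IsRoot x
  · rw [moe_mul_of_dvd hP (dvd_iff_isRoot.mpr hB), h0 B hB]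
    simp
  rw [moe_irreducible_mul hP (fun h => hB (dvd_iff_isRoot.mp h)), h1 B hB]
  have hw : rootWeight w ((X - C x) * B) = w x * rootWeight w B := by
    rw [rootWeight, rootWeight, ← Finset.mul_prod_erase _ _ (Finset.mem_univ x),
      ← Finset.mul_prod_erase (Finset.univ : Finset k) _ (Finset.mem_univ x)]
    rw [if_pos (by simp), if_neg hB, one_mul]
    refine congrArg (w x * ·) (Finset.prod_congr rfl fun y hy => ?_)
    have hne : y - x ≠ 0 := sub_ne_zero.mpr (Finset.ne_of_mem_erase hy)
    exact if_congr (by simp [IsRoot, hne]) rfl rfl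
  rw [hw]
  push_cast
  ring

theorem weightedSeries_update_zero (w : k → ℝ) (x : k) :
    weightedSeries w = (1 - w x * uval k) * weightedSeries (Function.update w x 0) := by
  set w0 := Function.update w x 0
  have hs := summable_weighted w
  have hs0 := summable_weighted w0
  rw [one_sub_mul]
  have e : ∀ n, weightedSum w (n + 1) * uval k ^ (n + 1) =
      weightedSum w0 (n + 1) * uval k ^ (n + 1) - w x * uval k * (weightedSum w0 n * uval k ^ n) :=
    fun n => by rw [weightedSum_succ w x n, pow_succ]; ring
  rw [weightedSeries, hs.tsum_eq_zero_add, weightedSum_zero, tsum_congr e,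
    ((summable_nat_add_iff (f := fun n => weightedSum w0 n * uval k ^ n) 1).mpr hs0).tsum_sub
      (hs0.mul_left _), tsum_mul_left, weightedSeries, ← weightedSum_zero w0, ← add_sub_assoc,
    ← hs0.tsum_eq_zero_add]

theorem weightedSeries_one : weightedSeries (fun _ : k => 1) = 1 - (Fintype.card k : ℝ)⁻¹ := by
  have h : ∀ n, weightedSum (fun _ : k => 1) n =
      if n = 0 then 1 else if n = 1 then -(Fintype.card k : ℝ) else 0 := fun n => by
    simp only [weightedSum, rootWeight_one_weights, mul_one]
    rw [← Int.cast_sum, sum_moe_monicSet]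
    split_ifs <;> simp
  have hq : (Fintype.card k : ℝ) ≠ 0 := (zero_lt_one.trans one_lt_q).ne'
  rw [weightedSeries, tsum_eq_sum (s := {0, 1}) fun n hn => by
    simp only [Finset.mem_insert, Finset.mem_singleton, not_or] at hn
    rw [h, if_neg hn.1, if_neg hn.2, zero_mul]]
  rw [Finset.sum_pair zero_ne_one, h, h, uval]
  simp only [if_pos, one_ne_zero, if_false, pow_zero, pow_one, mul_one]
  field_simp
  ring

theorem one_sub_uval_pos : 0 < 1 - uval k := by
  have h : (1 : ℝ) < (Fintype.card k : ℝ) ^ 2 := one_lt_pow₀ one_lt_q two_ne_zero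
  simpa [uval, sub_pos] using inv_lt_one_of_one_lt₀ h

/-- **The weighted series.** -/
theorem weightedSeries_eq (w : k → ℝ) :
    weightedSeries w =
      (1 - (Fintype.card k : ℝ)⁻¹) * ∏ x, (1 - w x * uval k) / (1 - uval k) := by
  suffices h : ∀ s : Finset k, ∀ w : k → ℝ, (∀ x ∉ s, w x = 1) → weightedSeries w =
      (1 - (Fintype.card k : ℝ)⁻¹) * ∏ x ∈ s, (1 - w x * uval k) / (1 - uval k) from
    h Finset.univ w fun x hx => absurd (Finset.mem_univ x) hx
  intro s
  induction s using Finset.induction_on with
  | empty =>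
    intro w hw
    rw [Finset.prod_empty, mul_one, show w = fun _ => 1 from funext fun x => hw x (by simp),
      weightedSeries_one]
  | insert x s hx ih =>
    intro w hw
    set w1 := Function.update w x 1
    have h1 := ih w1 fun y hy => by
      rcases eq_or_ne y x with rfl | hne
      · simp [w1]
      · simp [w1, hne, hw y (by simp [hne, hy])]
    rw [weightedSeries_update_zero w1 x] at h1
    rw [weightedSeries_update_zero w x, Finset.prod_insert hx]
    have e : ∏ y ∈ s, (1 - w y * uval k) / (1 - uval k) =
        ∏ y ∈ s, (1 - w1 y * uval k) / (1 - uval k) := Finset.prod_congr rfl fun y hy => by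
      simp [w1, ne_of_mem_of_not_mem hy hx]
    rw [e]
    simp only [w1, Function.update_self, Function.update_idem, one_mul] at h1 ⊢
    generalize ∏ y ∈ s, (1 - Function.update w x 1 y * uval k) / (1 - uval k) = P at h1 ⊢
    generalize weightedSeries (Function.update w x 0) = Z at h1 ⊢
    generalize 1 - ((Fintype.card k : ℝ))⁻¹ = a at h1 ⊢
    have hu := (one_sub_uval_pos (k := k)).ne'
    field_simp
    linear_combination (1 - w x * uval k) * h1

end FA.KurlbergRudnick
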